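import Fermat.Statements.S05
import Fermat.Agent.Unram.Main
import Fermat.Agent.Unram.Inertia

set_option autoImplicit false
open WeierstrassCurve WeierstrassCurve.Affine WeierstrassCurve.Affine.Point
open CuspForm ModularFormClass UpperHalfPlane
open FreyPackage

namespace Fermat.Agent.S05

open FAUnram

/-- Divisibility facts for a Frey package. -/
theorem not_dvd_of_dvd {a b : ℤ} (h : gcd a b = 1) {q : ℕ} (hq : q.Prime) (ha : (q : ℤ) ∣ a) :
    ¬ (q : ℤ) ∣ b := by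
  intro hb
  have h1 : (q : ℤ) ∣ gcd a b := dvd_gcd ha hb
  rw [h] at h1
  have := Int.natAbs_dvd_natAbs.mpr h1
  simp at this
  exact hq.one_lt.ne' this

theorem result (P : FreyPackage) {q : ℕ} (hq : q.Prime) (hq2 : q ≠ 2) (hqp : q ≠ P.p) : P.GaloisRepUnramifiedAt q := by
  intro A hA σ hσ x
  have hdec := inertia_le_decomposition A hσ
  set v := A.valuation with hv
  set W : WeierstrassCurve.Affine (AlgebraicClosure ℚ) := (P.freyCurve⁄(AlgebraicClosure ℚ)) with hW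
  let φ : W.Point →+ W.Point := Point.map (W' := P.freyCurve) σ.toAlgHom
  let σ' : AlgebraicClosure ℚ →+* AlgebraicClosure ℚ := (σ : AlgebraicClosure ℚ →+* AlgebraicClosure ℚ)
  have hσ1 : ∀ z, v z ≤ 1 → v (σ' z - z) < 1 := fun z hz => inertia_spec A hσ z hz
  have hσv : ∀ z, v (σ' z) = v z := fun z => valuation_apply_of_mem_decomposition A hdec z
  have hφ : ∀ x y h, ∃ h', φ (Point.some x y h) = Point.some (σ' x) (σ' y) h' :=
    fun x y h => ⟨_, Point.map_some (W' := P.freyCurve) σ.toAlgHom h⟩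
  suffices hmain : ∀ T : W.Point, P.p • T = 0 → φ T = T by
    apply Subtype.ext
    refine hmain x.1 ?_
    have := x.2
    rw [Submodule.mem_torsionBy_iff, natCast_zsmul] at this
    exact this
  intro T hT
  -- numerics
  obtain ⟨α, hα⟩ : ∃ α : AlgebraicClosure ℚ, α = ((P.a : ℤ) : AlgebraicClosure ℚ) ^ P.p :=
    ⟨_, rfl⟩
  obtain ⟨β, hβ⟩ : ∃ β : AlgebraicClosure ℚ, β = ((P.b : ℤ) : AlgebraicClosure ℚ) ^ P.p :=
    ⟨_, rfl⟩
  obtain ⟨γ, hγ⟩ : ∃ γ : AlgebraicClosure ℚ, γ = ((P.c : ℤ) : AlgebraicClosure ℚ) ^ P.p :=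
    ⟨_, rfl⟩
  have hαβγ : α + β = γ := by
    have := congrArg (fun z : ℤ => (z : AlgebraicClosure ℚ)) P.hFLT
    push_cast at this
    rw [hα, hβ, hγ]
    exact this
  have ha₁ : W.a₁ = 1 := by simp [hW, freyCurve]
  have ha₂ : W.a₂ = (β - 1 - α) / 4 := by simp [hW, freyCurve, hα, hβ]
  have ha₃ : W.a₃ = 0 := by simp [hW, freyCurve]
  have ha₄ : W.a₄ = -α * β / 16 := by simp [hW, freyCurve, hα, hβ]
  have ha₆ : W.a₆ = 0 := by simp [hW, freyCurve]
  have hq2' : ¬ (q : ℤ) ∣ 2 := by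
    intro h
    have h1 : q ∣ 2 := by exact_mod_cast h
    exact hq2 ((Nat.prime_dvd_prime_iff_eq hq Nat.prime_two).mp h1)
  have hqp' : ¬ (q : ℤ) ∣ (P.p : ℤ) := by
    intro h
    have h1 : q ∣ P.p := by exact_mod_cast h
    exact hqp ((Nat.prime_dvd_prime_iff_eq hq P.pp).mp h1)
  have v2 : v 2 = 1 := by
    have := valuation_intCast_eq_one A hq hA 2 hq2'
    simpa using this
  have vp : v (P.p : AlgebraicClosure ℚ) = 1 := by
    have := valuation_intCast_eq_one A hq hA (P.p : ℤ) hqp'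
    simpa using this
  have v4 : v 4 = 1 := by
    have : (4 : AlgebraicClosure ℚ) = 2 * 2 := by norm_num
    rw [this, map_mul, v2, one_mul]
  have v16 : v 16 = 1 := by
    have : (16 : AlgebraicClosure ℚ) = 4 * 4 := by norm_num
    rw [this, map_mul, v4, one_mul]
  have vpow_le : ∀ n : ℤ, v ((n : AlgebraicClosure ℚ) ^ P.p) ≤ 1 := by
    intro n
    rw [map_pow]
    exact pow_le_one₀ zero_le (valuation_intCast_le_one A n)
  have vpow_eq : ∀ n : ℤ, ¬ (q : ℤ) ∣ n → v ((n : AlgebraicClosure ℚ) ^ P.p) = 1 := by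
    intro n hn
    rw [map_pow, hv, valuation_intCast_eq_one A hq hA n hn, one_pow]
  have vpow_lt : ∀ n : ℤ, (q : ℤ) ∣ n → v ((n : AlgebraicClosure ℚ) ^ P.p) < 1 := by
    intro n hn
    rw [map_pow]
    exact pow_lt_one₀ zero_le (valuation_intCast_lt_one A hA n hn) P.hp0
  have h₁ : v W.a₁ ≤ 1 := by rw [ha₁, map_one]
  have h₂ : v W.a₂ ≤ 1 := by
    rw [ha₂, map_div₀, v4, div_one]
    exact v.map_sub_le (v.map_sub_le (hβ ▸ vpow_le _) (by rw [map_one])) (hα ▸ vpow_le _)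
  have h₃ : v W.a₃ ≤ 1 := by rw [ha₃, _root_.map_zero]; exact zero_le_one
  have h₄ : v W.a₄ ≤ 1 := by
    rw [ha₄, map_div₀, v16, div_one, map_mul, Valuation.map_neg]
    exact mul_le_one' (hα ▸ vpow_le _) (hβ ▸ vpow_le _)
  have h₆ : v W.a₆ ≤ 1 := by rw [ha₆, _root_.map_zero]; exact zero_le_one
  have hσint : ∀ n : ℤ, σ' (n : AlgebraicClosure ℚ) = n := fun n => map_intCast σ' n
  have hσα : σ' α = α := by rw [hα, map_pow, hσint]
  have hσβ : σ' β = β := by rw [hβ, map_pow, hσint]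
  have hσγ : σ' γ = γ := by rw [hγ, map_pow, hσint]
  have h20 : (2 : AlgebraicClosure ℚ) ≠ 0 := two_ne_zero
  by_cases hab : (q : ℤ) ∣ P.a * P.b
  · -- node at `x = 0`
    have hα0 : α ≠ 0 := by rw [hα]; exact pow_ne_zero _ (Int.cast_ne_zero.mpr P.ha0)
    have hβ0 : β ≠ 0 := by rw [hβ]; exact pow_ne_zero _ (Int.cast_ne_zero.mpr P.hb0)
    have hsub : v (β - α) = 1 := by
      rcases (Nat.prime_iff_prime_int.mp hq).dvd_or_dvd hab with h | h
      · have vα : v α < 1 := hα ▸ vpow_lt _ h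
        have vβ : v β = 1 := hβ ▸ vpow_eq _ (not_dvd_of_dvd P.hgcdab hq h)
        rw [v.map_sub_eq_of_lt_left (by rw [vβ]; exact vα), vβ]
      · have vβ : v β < 1 := hβ ▸ vpow_lt _ h
        have vα : v α = 1 := hα ▸ vpow_eq _ (not_dvd_of_dvd (gcd_comm P.a P.b ▸ P.hgcdab) hq h)
        rw [v.map_sub_eq_of_lt_right (by rw [vα]; exact vβ), vα]
    have hw : v (-α * β / 16) = v (((P.a * P.b : ℤ) : AlgebraicClosure ℚ)) ^ P.p := by
      rw [map_div₀, v16, div_one, map_mul, Valuation.map_neg, hα, hβ]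
      push_cast
      rw [map_mul, mul_pow, map_pow, map_pow]
    have hN : (kumSys W 0).IsNodal v ((β - α) / 4) (-α * β / 16) :=
      { hb₂ := by
          change W.b₂ + 12 * 0 = _
          rw [b₂, ha₁, ha₂]; field_simp; ring
        hb₄ := by
          change W.b₄ + 0 * W.b₂ + 6 * 0 ^ 2 = _
          rw [b₂, b₄, ha₁, ha₂, ha₃, ha₄]; field_simp; ring
        hb₆ := by
          change W.b₆ + 2 * 0 * W.b₄ + 0 ^ 2 * W.b₂ + 4 * 0 ^ 3 = _
          rw [b₂, b₄, b₆, ha₁, ha₂, ha₃, ha₄, ha₆]; ring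
        hb₈ := by
          change W.b₈ + 3 * 0 * W.b₆ + 3 * 0 ^ 2 * W.b₄ + 0 ^ 3 * W.b₂ + 3 * 0 ^ 4 = _
          rw [b₂, b₄, b₆, b₈, ha₁, ha₂, ha₃, ha₄, ha₆]; ring
        va := by rw [map_div₀, v4, div_one, hsub]
        v2 := v2
        vb := by
          rw [hw]
          exact pow_lt_one₀ zero_le (valuation_intCast_lt_one A hA _ hab) P.hp0
        b0 := by
          refine div_ne_zero (mul_ne_zero (neg_ne_zero.mpr hα0) hβ0) (by norm_num) }
    refine fixed_of_nodal W v h₁ h₂ h₃ h₄ h₆ 0 ((β - α) / 4) (-α * β / 16)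
      (((P.a * P.b : ℤ) : AlgebraicClosure ℚ)) (by rw [_root_.map_zero]; exact zero_le_one) hN σ' hσ1 hσv
      (by rw [ha₁, map_one]) (by rw [ha₃, _root_.map_zero]) (_root_.map_zero _)
      (by rw [map_div₀, map_sub, hσα, hσβ, map_ofNat])
      (by rw [map_div₀, map_mul, map_neg, hσα, hσβ, map_ofNat]) (hσint _) φ hφ P.p vp P.hp_odd hw T hT
  · by_cases hc : (q : ℤ) ∣ P.c
    · -- node at `x = α / 4`
      have hα0 : α ≠ 0 := by rw [hα]; exact pow_ne_zero _ (Int.cast_ne_zero.mpr P.ha0)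
      have hγ0 : γ ≠ 0 := by rw [hγ]; exact pow_ne_zero _ (Int.cast_ne_zero.mpr P.hc0)
      have vγ : v γ < 1 := hγ ▸ vpow_lt _ hc
      have vα : v α = 1 :=
        hα ▸ vpow_eq _ (not_dvd_of_dvd (gcd_comm P.a P.c ▸ P.hgcdac) hq hc)
      have hw : v (α * γ / 16) = v (((P.c : ℤ) : AlgebraicClosure ℚ)) ^ P.p := by
        rw [map_div₀, v16, div_one, map_mul, vα, one_mul, hγ, map_pow]
      have hβ' : β = γ - α := by rw [← hαβγ]; ring
      have hN : (kumSys W (α / 4)).IsNodal v ((α + γ) / 4) (α * γ / 16) :=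
        { hb₂ := by
            change W.b₂ + 12 * (α / 4) = _
            rw [b₂, ha₁, ha₂, hβ']; field_simp; ring
          hb₄ := by
            change W.b₄ + (α / 4) * W.b₂ + 6 * (α / 4) ^ 2 = _
            rw [b₂, b₄, ha₁, ha₂, ha₃, ha₄, hβ']; field_simp; ring
          hb₆ := by
            change W.b₆ + 2 * (α / 4) * W.b₄ + (α / 4) ^ 2 * W.b₂ + 4 * (α / 4) ^ 3 = _
            rw [b₂, b₄, b₆, ha₁, ha₂, ha₃, ha₄, ha₆, hβ']; field_simp; ring
          hb₈ := by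
            change W.b₈ + 3 * (α / 4) * W.b₆ + 3 * (α / 4) ^ 2 * W.b₄ + (α / 4) ^ 3 * W.b₂
              + 3 * (α / 4) ^ 4 = _
            rw [b₂, b₄, b₆, b₈, ha₁, ha₂, ha₃, ha₄, ha₆, hβ']; field_simp; ring
          va := by
            rw [map_div₀, v4, div_one, v.map_add_eq_of_lt_left (by rw [vα]; exact vγ), vα]
          v2 := v2
          vb := by
            rw [hw]
            exact pow_lt_one₀ zero_le (valuation_intCast_lt_one A hA _ hc) P.hp0
          b0 := div_ne_zero (mul_ne_zero hα0 hγ0) (by norm_num) }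
      refine fixed_of_nodal W v h₁ h₂ h₃ h₄ h₆ (α / 4) ((α + γ) / 4) (α * γ / 16)
        (((P.c : ℤ) : AlgebraicClosure ℚ)) (by rw [map_div₀, v4, div_one, vα]) hN σ' hσ1 hσv
        (by rw [ha₁, map_one]) (by rw [ha₃, _root_.map_zero])
        (by rw [map_div₀, hσα, map_ofNat])
        (by rw [map_div₀, map_add, hσα, hσγ, map_ofNat])
        (by rw [map_div₀, map_mul, hσα, hσγ, map_ofNat]) (hσint _) φ hφ P.p vp P.hp_odd hw T hT
    · -- good reduction
      have hna : ¬ (q : ℤ) ∣ P.a := fun h => hab (Dvd.dvd.mul_right h _)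
      have hnb : ¬ (q : ℤ) ∣ P.b := fun h => hab (Dvd.dvd.mul_left h _)
      have hΔ : W.Δ = α ^ 2 * β ^ 2 * γ ^ 2 / 256 := by
        rw [WeierstrassCurve.Δ, b₂, b₄, b₆, b₈, ha₁, ha₂, ha₃, ha₄, ha₆, ← hαβγ]
        field_simp
        ring
      have v256 : v 256 = 1 := by
        have : (256 : AlgebraicClosure ℚ) = 16 * 16 := by norm_num
        rw [this, map_mul, v16, one_mul]
      have hvΔ : v W.Δ = 1 := by
        have vα : v α = 1 := hα ▸ vpow_eq _ hna
        have vβ : v β = 1 := hβ ▸ vpow_eq _ hnb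
        have vγ : v γ = 1 := hγ ▸ vpow_eq _ hc
        rw [hΔ, map_div₀, v256, div_one, map_mul, map_mul, map_pow, map_pow, map_pow, vα, vβ, vγ]
        simp
      exact fixed_of_good W v h₁ h₂ h₃ h₄ h₆ hvΔ σ' hσ1 φ hφ P.p vp T hT

end Fermat.Agent.S05
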