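import Fermat.Statements.S02

set_option autoImplicit false
open FreyPackage

namespace Fermat.Agent.S02

/-- Case: coprime, `b` even. -/
theorem aux_even (a b c : ℤ) (ha : a ≠ 0) (hb : b ≠ 0) (hc : c ≠ 0) (p : ℕ) (pp : p.Prime)
    (hp5 : 5 ≤ p) (H : a ^ p + b ^ p = c ^ p) (hab : Int.gcd a b = 1) (hb2 : 2 ∣ b) :
    Nonempty FreyPackage := by
  have hodd : Odd p := pp.odd_of_ne_two (by omega)
  have ha_odd : ¬ (2 : ℤ) ∣ a := by
    intro h2
    have : (2 : ℤ) ∣ (Int.gcd a b : ℤ) := Int.dvd_coe_gcd h2 hb2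
    rw [hab] at this
    norm_num at this
  have hmod : a % 4 = 1 ∨ a % 4 = 3 := by omega
  rcases hmod with h1 | h3
  · refine ⟨⟨-a, -b, -c, neg_ne_zero.2 ha, neg_ne_zero.2 hb, neg_ne_zero.2 hc, p, pp, hp5, ?_, ?_,
      ?_, ?_⟩⟩
    · rw [hodd.neg_pow, hodd.neg_pow, hodd.neg_pow, ← H]; ring
    · rw [← Int.coe_gcd, Int.gcd_neg, Int.neg_gcd, hab]; rfl
    · have : ((-a : ℤ) : ZMod 4) = ((3 : ℤ) : ZMod 4) := by
        rw [ZMod.intCast_eq_intCast_iff_dvd_sub]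
        norm_num
        omega
      simpa using this
    · rw [ZMod.intCast_zmod_eq_zero_iff_dvd]
      exact (dvd_neg).2 (by exact_mod_cast hb2)
  · refine ⟨⟨a, b, c, ha, hb, hc, p, pp, hp5, H, ?_, ?_, ?_⟩⟩
    · rw [← Int.coe_gcd, hab]; rfl
    · have : ((a : ℤ) : ZMod 4) = ((3 : ℤ) : ZMod 4) := by
        rw [ZMod.intCast_eq_intCast_iff_dvd_sub]
        norm_num
        omega
      simpa using this
    · rw [ZMod.intCast_zmod_eq_zero_iff_dvd]
      exact_mod_cast hb2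

/-- Case: coprime. -/
theorem aux_coprime (a b c : ℤ) (ha : a ≠ 0) (hb : b ≠ 0) (hc : c ≠ 0) (p : ℕ) (pp : p.Prime)
    (hp5 : 5 ≤ p) (H : a ^ p + b ^ p = c ^ p) (hab : Int.gcd a b = 1) :
    Nonempty FreyPackage := by
  have hodd : Odd p := pp.odd_of_ne_two (by omega)
  have hp0 : p ≠ 0 := by omega
  by_cases hb2 : (2 : ℤ) ∣ b
  · exact aux_even a b c ha hb hc p pp hp5 H hab hb2
  by_cases ha2 : (2 : ℤ) ∣ a
  · exact aux_even b a c hb ha hc p pp hp5 (by rw [add_comm]; exact H)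
      (by rw [Int.gcd_comm]; exact hab) ha2
  -- both odd, so `c` is even
  have hc2 : (2 : ℤ) ∣ c := by
    have ha' : Odd a := by
      rw [← Int.not_even_iff_odd, even_iff_two_dvd]; exact ha2
    have hb' : Odd b := by
      rw [← Int.not_even_iff_odd, even_iff_two_dvd]; exact hb2
    have h1 : Even (c ^ p) := by
      rw [← H]; exact (ha'.pow).add_odd (hb'.pow)
    have h2 : Even c := (Int.even_pow.1 h1).1
    exact even_iff_two_dvd.1 h2
  have hac : Int.gcd a c = 1 := by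
    have h := gcdab_eq_gcdac (a := a) (b := b) (c := c) (p := p) (by omega) H
    rw [← Int.coe_gcd, ← Int.coe_gcd, hab] at h
    exact_mod_cast h.symm
  refine aux_even a (-c) (-b) ha (neg_ne_zero.2 hc) (neg_ne_zero.2 hb) p pp hp5 ?_ ?_
    ((dvd_neg).2 hc2)
  · rw [hodd.neg_pow, hodd.neg_pow, ← H]; ring
  · rw [Int.gcd_neg]; exact hac

theorem result (a b c : ℤ) (ha : a ≠ 0) (hb : b ≠ 0) (hc : c ≠ 0) (p : ℕ) (pp : p.Prime) (hp5 : 5 ≤ p) (H : a ^ p + b ^ p = c ^ p) : Nonempty FreyPackage := by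
  have hp0 : p ≠ 0 := by omega
  set d : ℤ := (Int.gcd a b : ℤ) with hd
  have hd0 : d ≠ 0 := by
    rw [hd]
    exact_mod_cast (Int.gcd_pos_of_ne_zero_left b ha).ne'
  obtain ⟨a', ha'⟩ : d ∣ a := Int.gcd_dvd_left a b
  obtain ⟨b', hb'⟩ : d ∣ b := Int.gcd_dvd_right a b
  have hdc : d ∣ c := by
    rw [← Int.pow_dvd_pow_iff hp0, ← H]
    exact dvd_add (pow_dvd_pow_of_dvd ⟨a', ha'⟩ p) (pow_dvd_pow_of_dvd ⟨b', hb'⟩ p)
  obtain ⟨c', hc'⟩ := hdc
  have ha'0 : a' ≠ 0 := by rintro rfl; exact ha (by rw [ha', mul_zero])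
  have hb'0 : b' ≠ 0 := by rintro rfl; exact hb (by rw [hb', mul_zero])
  have hc'0 : c' ≠ 0 := by rintro rfl; exact hc (by rw [hc', mul_zero])
  have H' : a' ^ p + b' ^ p = c' ^ p := by
    have hdp : d ^ p ≠ 0 := pow_ne_zero p hd0
    apply mul_left_cancel₀ hdp
    rw [mul_add, ← mul_pow, ← mul_pow, ← mul_pow, ← ha', ← hb', ← hc', H]
  have hgcd : Int.gcd a' b' = 1 := by
    have h1 : Int.gcd a b = Int.gcd a b * Int.gcd a' b' := by
      conv_lhs => rw [ha', hb', Int.gcd_mul_left]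
      rw [hd, Int.natAbs_natCast]
    have hpos : 0 < Int.gcd a b := Int.gcd_pos_of_ne_zero_left b ha
    exact (Nat.eq_of_mul_eq_mul_left hpos (by rw [mul_one]; exact h1)).symm
  exact aux_coprime a' b' c' ha'0 hb'0 hc'0 p pp hp5 H' hgcd

end Fermat.Agent.S02
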