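import Fermat.Statements.S07
import Fermat.Prelude.Thm_ModularForm_sturm_bound_Gamma0
import Fermat.Prelude.Thm_CongruenceSubgroup_one_mem_strictPeriods_Gamma0

set_option autoImplicit false
open WeierstrassCurve WeierstrassCurve.Affine WeierstrassCurve.Affine.Point
open CuspForm ModularFormClass UpperHalfPlane
open ModularForm

namespace Fermat.Agent.S07

open scoped MatrixGroups in
theorem index_Gamma0_two_le : (CongruenceSubgroup.Gamma0 2).index ≤ 4 := by
  classical
  let φ : SL(2, ℤ) → ZMod 2 × ZMod 2 := fun g => ((g 0 0 : ZMod 2), (g 1 0 : ZMod 2))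
  have key : ∀ g₁ g₂ : SL(2, ℤ), φ g₁ = φ g₂ ↔ g₁⁻¹ * g₂ ∈ CongruenceSubgroup.Gamma0 2 := by
    intro g₁ g₂
    rw [CongruenceSubgroup.Gamma0_mem]
    have h10 : (g₁⁻¹ * g₂) 1 0 = - g₁ 1 0 * g₂ 0 0 + g₁ 0 0 * g₂ 1 0 := by
      rw [Matrix.SpecialLinearGroup.coe_mul, Matrix.SpecialLinearGroup.SL2_inv_expl,
        Matrix.mul_apply]
      simp [Fin.sum_univ_two]
    rw [h10]
    have d1 : (g₁ 0 0 : ZMod 2) * (g₁ 1 1 : ZMod 2) - (g₁ 0 1 : ZMod 2) * (g₁ 1 0 : ZMod 2) = 1 := by
      have := g₁.det_coe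
      rw [Matrix.det_fin_two] at this
      exact_mod_cast congrArg (Int.cast : ℤ → ZMod 2) this
    have d2 : (g₂ 0 0 : ZMod 2) * (g₂ 1 1 : ZMod 2) - (g₂ 0 1 : ZMod 2) * (g₂ 1 0 : ZMod 2) = 1 := by
      have := g₂.det_coe
      rw [Matrix.det_fin_two] at this
      exact_mod_cast congrArg (Int.cast : ℤ → ZMod 2) this
    simp only [φ, Prod.mk.injEq]
    push_cast
    generalize (g₁ 0 0 : ZMod 2) = a₁ at *
    generalize (g₁ 0 1 : ZMod 2) = b₁ at *
    generalize (g₁ 1 0 : ZMod 2) = c₁ at *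
    generalize (g₁ 1 1 : ZMod 2) = e₁ at *
    generalize (g₂ 0 0 : ZMod 2) = a₂ at *
    generalize (g₂ 0 1 : ZMod 2) = b₂ at *
    generalize (g₂ 1 0 : ZMod 2) = c₂ at *
    generalize (g₂ 1 1 : ZMod 2) = e₂ at *
    revert a₁ b₁ c₁ e₁ a₂ b₂ c₂ e₂
    decide
  let ψ : SL(2, ℤ) ⧸ CongruenceSubgroup.Gamma0 2 → ZMod 2 × ZMod 2 :=
    Quotient.lift φ (by
      intro a b hab
      exact (key a b).2 (QuotientGroup.leftRel_apply.1 hab))
  have hψ : Function.Injective ψ := by
    intro x y
    induction x using Quotient.inductionOn with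
    | _ a =>
    induction y using Quotient.inductionOn with
    | _ b =>
    intro h
    exact Quotient.sound (QuotientGroup.leftRel_apply.2 ((key a b).1 h))
  have := Nat.card_le_card_of_injective ψ hψ
  simpa [Subgroup.index, Nat.card_prod] using this

theorem result (f : CuspForm (CongruenceSubgroup.Gamma0 2) 2) : f = 0 := by
  have hidx := index_Gamma0_two_le
  let F : ModularForm (CongruenceSubgroup.Gamma0 2) 2 :=
    { toSlashInvariantForm := f.toSlashInvariantForm
      holo' := f.holo'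
      bdd_at_cusps' := fun hc g hg => (f.zero_at_cusps' hc g hg).boundedAtFilter }
  have hF : F = 0 := by
    apply ModularForm.sturm_bound_Gamma0 2 F
    intro n hn
    have hn0 : n = 0 := by
      have h1 : ((2 : ℤ) * ((CongruenceSubgroup.Gamma0 2).index : ℤ)).toNat
          = 2 * (CongruenceSubgroup.Gamma0 2).index := by
        have : ((2 : ℤ) * ((CongruenceSubgroup.Gamma0 2).index : ℤ))
            = ((2 * (CongruenceSubgroup.Gamma0 2).index : ℕ) : ℤ) := by push_cast; ring
        rw [this, Int.toNat_natCast]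
      rw [h1] at hn
      omega
    subst hn0
    exact CuspFormClass.qExpansion_coeff_zero f one_pos
      (CongruenceSubgroup.one_mem_strictPeriods_Gamma0 2)
  ext z
  have := congrArg (fun G : ModularForm (CongruenceSubgroup.Gamma0 2) 2 => G z) hF
  exact this

end Fermat.Agent.S07
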