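import Fermat.Statements.S08
import Fermat.Prelude.Thm_ModularForm_sturm_bound_Gamma0
import Fermat.Prelude.Thm_CongruenceSubgroup_one_mem_strictPeriods_Gamma0

set_option autoImplicit false
open WeierstrassCurve WeierstrassCurve.Affine WeierstrassCurve.Affine.Point
open CuspForm ModularFormClass UpperHalfPlane
open ModularForm

namespace Fermat.Agent.S08

theorem result (f : CuspForm (CongruenceSubgroup.Gamma0 1) 2) : f = 0 := by
  have hidx : (CongruenceSubgroup.Gamma0 1).index = 1 := by
    have : CongruenceSubgroup.Gamma0 1 = ⊤ := by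
      ext x
      simp [CongruenceSubgroup.Gamma0_mem, eq_iff_true_of_subsingleton]
    rw [this, Subgroup.index_top]
  let F : ModularForm (CongruenceSubgroup.Gamma0 1) 2 :=
    { toSlashInvariantForm := f.toSlashInvariantForm
      holo' := f.holo'
      bdd_at_cusps' := fun hc g hg => (f.zero_at_cusps' hc g hg).boundedAtFilter }
  have hF : F = 0 := by
    apply ModularForm.sturm_bound_Gamma0 1 F
    intro n hn
    rw [hidx] at hn
    have hn0 : n = 0 := by
      have h1 : ((2 : ℤ) * ((1 : ℕ) : ℤ)).toNat = 2 := by decide
      rw [h1] at hn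
      omega
    subst hn0
    exact CuspFormClass.qExpansion_coeff_zero f one_pos
      (CongruenceSubgroup.one_mem_strictPeriods_Gamma0 1)
  ext z
  have := congrArg (fun G : ModularForm (CongruenceSubgroup.Gamma0 1) 2 => G z) hF
  exact this

end Fermat.Agent.S08
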