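import Fermat.Statements.S10
import Fermat.Agent.FLTSmall.Main
import Fermat.Agent.FLTSmall.PID

set_option autoImplicit false
open WeierstrassCurve WeierstrassCurve.Affine WeierstrassCurve.Affine.Point
open CuspForm ModularFormClass UpperHalfPlane
open FreyPackage

namespace Fermat.Agent.S10

set_option backward.isDefEq.respectTransparency false in
theorem flt_seven (a b c : ℤ) (ha : a ≠ 0) (hb : b ≠ 0) (hc : c ≠ 0) (hab : IsCoprime a b) :
    a ^ 7 + b ^ 7 ≠ c ^ 7 := by
  haveI : Fact (Nat.Prime 7) := ⟨by norm_num⟩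
  exact FLTSmall.flt_of_pid (p := 7) (by norm_num) (CyclotomicField 7 ℚ)
    (FLTSmall.pid_seven _) {1, 2, 4}
    (fun R _ _ z B => FLTSmall.units_seven B _) (by decide)
    (fun a b c hab h => FLTSmall.caseI (Or.inr (Or.inl rfl)) hab h) a b c ha hb hc hab

set_option backward.isDefEq.respectTransparency false in
theorem flt_thirteen (a b c : ℤ) (ha : a ≠ 0) (hb : b ≠ 0) (hc : c ≠ 0) (hab : IsCoprime a b) :
    a ^ 13 + b ^ 13 ≠ c ^ 13 := by
  haveI : Fact (Nat.Prime 13) := ⟨by norm_num⟩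
  exact FLTSmall.flt_of_pid (p := 13) (by norm_num) (CyclotomicField 13 ℚ)
    (FLTSmall.pid_thirteen _) {1, 2, 4, 6, 8, 10}
    (fun R _ _ z B => FLTSmall.units_thirteen B _) (by decide)
    (fun a b c hab h => FLTSmall.caseI (Or.inr (Or.inr (Or.inr rfl))) hab h) a b c ha hb hc hab

theorem result (P : FreyPackage) (hp : P.p = 5 ∨ P.p = 7 ∨ P.p = 13) : ¬ HasGaloisStableCofixedLine (K := AlgebraicClosure ℚ) ℚ P.freyCurve P.p := by
  exfalso
  refine FLTSmall.no_frey_of_flt P ?_
  rcases hp with hp | hp | hp <;> rw [hp]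
  · exact FLTSmall.flt_five
  · exact flt_seven
  · exact flt_thirteen

end Fermat.Agent.S10
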