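import Fermat.Statements.S11
import Fermat.Agent.FLTSmall.Main
import Fermat.Agent.FLTSmall.PID

set_option autoImplicit false
open WeierstrassCurve WeierstrassCurve.Affine WeierstrassCurve.Affine.Point
open CuspForm ModularFormClass UpperHalfPlane
open FreyPackage

namespace Fermat.Agent.S11

set_option backward.isDefEq.respectTransparency false in
theorem flt_eleven (a b c : ℤ) (ha : a ≠ 0) (hb : b ≠ 0) (hc : c ≠ 0) (hab : IsCoprime a b) :
    a ^ 11 + b ^ 11 ≠ c ^ 11 := by
  haveI : Fact (Nat.Prime 11) := ⟨by norm_num⟩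
  exact FLTSmall.flt_of_pid (p := 11) (by norm_num) (CyclotomicField 11 ℚ)
    (FLTSmall.pid_eleven _) {1, 2, 4, 6, 8}
    (fun R _ _ z B => FLTSmall.units_eleven B _) (by decide)
    (fun a b c hab h => FLTSmall.caseI (Or.inr (Or.inr (Or.inl rfl))) hab h) a b c ha hb hc hab

theorem result (P : FreyPackage) (hp : P.p = 11) : ¬ HasGaloisStableCofixedLine (K := AlgebraicClosure ℚ) ℚ P.freyCurve P.p := by
  exfalso
  refine FLTSmall.no_frey_of_flt P ?_
  rw [hp]
  exact flt_eleven

end Fermat.Agent.S11
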