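-- Statement S16: |T/I| = numerator of (p-1)/12 (Mazur's Eisenstein ideal, index).
import Fermat.Statements.S16
import Fermat.Agent.Eis.Red
import Fermat.Agent.Eis.UB
import Fermat.Agent.Eis.Exc
import Fermat.Agent.Eis.LB

set_option autoImplicit false
open ModularCurve CuspForm
open ModularCurve

namespace Fermat.Agent.S16

theorem result
    (p : ℕ) [Fact p.Prime] :
    Nat.card (↥(heckeLatticeAlgebra p ∅) ⧸
        Ideal.map ((latticeRestrictHom p ∅).toRingHom.comp (heckeEvalForms p 2))
          (eisensteinIdeal p)) =
      eisensteinNumerator p :=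
  FA16.card_eq p _ (FA16.lowerBound p) (FA16.UB_of p (FA16.exc p))

end Fermat.Agent.S16
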