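import Fermat.Statements.S29
import Fermat.Agent.Gal.Final

set_option autoImplicit false
open CuspForm CuspForm.IsNormalizedEigenform

namespace Fermat.Agent.S29

open Polynomial in
theorem result
    {N : ℕ} {g : CuspForm (CongruenceSubgroup.Gamma0 N) 2} (hg : g.IsNormalizedEigenform)
    {p : ℕ} (hp : p.Prime) {k : Type} [Field k] [CharP k p]
    (φ : integralClosure ℤ ℂ →+* k) :
    ∃ ρ : ResidualGaloisRep k, ρ.IsAttachedTo g φ ∧
      ∀ ℓ : ℕ, ℓ.Prime → ¬ ℓ ∣ N * p → ρ.IsUnramifiedAt ℓ := by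
  classical
  have : Fact p.Prime := ⟨hp⟩
  rcases Nat.eq_zero_or_pos N with hN | hN
  · subst hN
    refine ⟨FAG.residualOfMatrix 1 ⟨⊥, inferInstance, fun _ _ => rfl⟩, ?_, ?_⟩
    · intro ℓ _ hℓN
      exact absurd (dvd_zero ℓ) hℓN
    · intro ℓ _ hℓN
      exact absurd (by simp) hℓN
  · have : NeZero N := ⟨hN.ne'⟩
    have hprime : (RingHom.ker φ).IsPrime := RingHom.ker_isPrime φ
    have hmax : (RingHom.ker φ).IsMaximal := by
      refine Ideal.isMaximal_of_isIntegral_of_isMaximal_comap (R := ℤ) (RingHom.ker φ) ?_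
      have h1 : (RingHom.ker φ).comap (algebraMap ℤ (integralClosure ℤ ℂ)) =
          Ideal.span {(p : ℤ)} := by
        rw [← CharP.ker_intAlgebraMap_eq_span (R := k) p, RingHom.comap_ker]
        congr 1
        exact RingHom.ext_int _ _
      rw [h1]
      exact PrincipalIdealRing.isMaximal_of_irreducible (Nat.prime_iff_prime_int.1 hp).irreducible
    let _ : Field (integralClosure ℤ ℂ ⧸ RingHom.ker φ) := Ideal.Quotient.field _
    have hchar : CharP (integralClosure ℤ ℂ ⧸ RingHom.ker φ) p :=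
      (RingHom.charP_iff _ (RingHom.kerLift_injective φ) p).2 inferInstance
    let _ : Algebra (ZMod p) (integralClosure ℤ ℂ ⧸ RingHom.ker φ) := ZMod.algebra _ p
    obtain ⟨R, hR1, hR2, hR3⟩ := FAG.exists_matrix_rep hg (p := p)
      (Ideal.Quotient.mk (RingHom.ker φ)) Ideal.Quotient.mk_surjective
    have hR1' : GaloisFactorsThroughFiniteLevel (FAG.matMap (RingHom.kerLift φ) R) := by
      obtain ⟨L, hL, h⟩ := hR1
      exact ⟨L, hL, fun σ hσ => FAG.matMap_eq_one _ R (h σ hσ)⟩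
    refine ⟨FAG.residualOfMatrix (FAG.matMap (RingHom.kerLift φ) R) hR1', ?_, ?_⟩
    · intro ℓ hℓ hℓN hℓk A hA σ hσ
      have hℓNp : ¬ ℓ ∣ N * p := by
        intro h
        rcases (Nat.Prime.dvd_mul hℓ).1 h with h | h
        · exact hℓN h
        · rw [(Nat.prime_dvd_prime_iff_eq hℓ hp).1 h] at hℓk
          exact hℓk (CharP.cast_eq_zero k p)
      obtain ⟨a, ha, hc⟩ := hR3 ℓ hℓ hℓNp A hA σ hσ
      refine ⟨a, ha, ?_⟩
      rw [FAG.residualOfMatrix_charpoly, FAG.matMap_charpoly, hc]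
      simp only [Polynomial.map_add, Polynomial.map_sub, Polynomial.map_mul, Polynomial.map_pow,
        Polynomial.map_X, Polynomial.map_C, map_natCast, RingHom.kerLift_mk,
        Polynomial.map_natCast]
    · intro ℓ hℓ hℓNp A hA σ hσ
      exact FAG.residualOfMatrix_eq_one _ _ (FAG.matMap_eq_one _ R (hR2 ℓ hℓ hℓNp A hA σ hσ))

end Fermat.Agent.S29
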