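import Fermat.Statements.S34
import Fermat.Agent.Nodal.S34Core
import Fermat.Agent.Nodal.Input

set_option autoImplicit false
set_option autoImplicit false
open IsLocalRing
open CuspForm CuspForm.HeckeGaloisRepDatum

namespace Fermat.Agent.S34

theorem result
    {𝒪 : Type} [CommRing 𝒪] [IsDomain 𝒪] [IsDiscreteValuationRing 𝒪]
    [IsAdicComplete (maximalIdeal 𝒪) 𝒪] [Finite (ResidueField 𝒪)] [CharZero 𝒪]
    {p : ℕ} (hp : p.Prime) (hp𝒪 : (p : 𝒪) ∈ maximalIdeal 𝒪)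
    {N : ℕ} [NeZero N] {S : Finset ℕ} (hpS : p ∈ S) (hNS : ∀ q : ℕ, q.Prime → q ∣ N → q ∈ S)
    {θ : CuspForm.heckeAlgebra N 2 (↑S : Set ℕ) →+* ResidueField 𝒪}
    {T : Type} [CommRing T] [IsLocalRing T] [IsNoetherianRing T]
    [IsAdicComplete (maximalIdeal T) T] [Algebra 𝒪 T] [IsLocalHom (algebraMap 𝒪 T)]
    [Module.Finite 𝒪 T] [Module.Free 𝒪 T]
    (H : CuspForm.HeckeGaloisRepDatum N (↑S : Set ℕ) 𝒪 θ T)
    (q : ℕ) (hq : q.Prime) (hqp : q ≠ p) (hqN : q ∣ N) (hq2 : ¬ q ^ 2 ∣ N) :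
    H.ρ.IsUnipotentOnInertiaAt q := by
  have hpT : (p : T) ∈ IsLocalRing.maximalIdeal T := by
    have h1 : algebraMap 𝒪 T (p : 𝒪) ∈ IsLocalRing.maximalIdeal T :=
      map_nonunit (algebraMap 𝒪 T) _ hp𝒪
    rwa [map_natCast] at h1
  have h2T : ∀ x : T, 2 * x = 0 → x = 0 := by
    intro x hx
    have h1 : (2 : 𝒪) • x = 0 := by
      rw [Algebra.smul_def, map_ofNat]
      exact hx
    exact (smul_eq_zero.mp h1).resolve_left two_ne_zero
  have hU : ∀ n, FAN.UnipHyp (p ^ n) N q := by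
    intro n
    have : NeZero (p ^ n) := ⟨pow_ne_zero n hp.ne_zero⟩
    refine FAN.unipHyp_main (fun M l _ hl hlM hM P hP => FAN.nodalInput M l hl hlM hM P hP)
      hq hqN hq2 ?_
    intro hdvd
    exact hqp ((Nat.prime_dvd_prime_iff_eq hq hp).1 (hq.dvd_of_dvd_pow hdvd))
  exact FAN.unipotent_of_unip h2T hp hpT hpS hNS H.π H.ρ H.charpoly_frob hq hqp hU

end Fermat.Agent.S34
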