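import Fermat.Statements.S42
import Fermat.Agent.Gal.Final
import Fermat.Agent.Gal.FreyField

set_option autoImplicit false
open FreyPackage

namespace Fermat.Agent.S42

theorem result (P : FreyPackage) :
    ∀ M : ℕ, 0 < M → P.EigenformResidualAttachmentAt M := by
  intro M hM g hg 𝔪 h𝔪 hp𝔪
  have : NeZero M := ⟨hM.ne'⟩
  have : Fact P.p.Prime := ⟨P.pp⟩
  let _ : Field (integralClosure ℤ ℂ ⧸ 𝔪) := Ideal.Quotient.field 𝔪
  have hchar : CharP (integralClosure ℤ ℂ ⧸ 𝔪) P.p := by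
    refine (CharP.charP_iff_prime_eq_zero P.pp).2 ?_
    rw [← map_natCast (Ideal.Quotient.mk 𝔪), Ideal.Quotient.eq_zero_iff_mem]
    exact hp𝔪
  let _ : Algebra (ZMod P.p) (integralClosure ℤ ℂ ⧸ 𝔪) := ZMod.algebra _ P.p
  obtain ⟨R, hR1, hR2, hR3⟩ := FAG.exists_matrix_rep hg (p := P.p)
    (Ideal.Quotient.mk 𝔪) Ideal.Quotient.mk_surjective
  obtain ⟨L1, hL1, hL1'⟩ := hR1
  obtain ⟨L2, hL2, hL2'⟩ := FAG.frey_finiteLevel P
  have halg : Algebra.IsAlgebraic ℚ (AlgebraicClosure ℚ) := AlgebraicClosure.isAlgebraic ℚ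
  have hcl : IsAlgClosure ℚ (AlgebraicClosure ℚ) := ⟨inferInstance, inferInstance⟩
  have hnorm : Normal ℚ (AlgebraicClosure ℚ) := IsAlgClosure.normal ℚ _
  have hL12 : FiniteDimensional ℚ (L1 ⊔ L2 : IntermediateField ℚ (AlgebraicClosure ℚ)) :=
    IntermediateField.finiteDimensional_sup L1 L2
  set L0 : IntermediateField ℚ (AlgebraicClosure ℚ) := IntermediateField.normalClosure ℚ
    (L1 ⊔ L2 : IntermediateField ℚ (AlgebraicClosure ℚ)) (AlgebraicClosure ℚ) with hL0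
  have hL0fin : FiniteDimensional ℚ L0 := normalClosure.is_finiteDimensional _ _ _
  have hL0n : Normal ℚ L0 := normalClosure.normal _ _ _
  have hL0g : IsGalois ℚ L0 := ⟨⟩
  have hle : (L1 ⊔ L2 : IntermediateField ℚ (AlgebraicClosure ℚ)) ≤ L0 :=
    IntermediateField.le_normalClosure _
  have hnf : NumberField L0 := { to_charZero := inferInstance, to_finiteDimensional := hL0fin }
  have hR1 : GaloisFactorsThroughFiniteLevel R := ⟨L1, hL1, hL1'⟩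
  have hNp : ∀ ℓ : ℕ, ℓ.Prime → ¬ ℓ ∣ M → ℓ ≠ P.p → ¬ ℓ ∣ M * P.p := by
    intro ℓ hℓ h1 h2 h
    rcases (Nat.Prime.dvd_mul hℓ).1 h with h | h
    · exact h1 h
    · exact h2 ((Nat.prime_dvd_prime_iff_eq hℓ P.pp).1 h)
  refine ⟨integralClosure ℤ ℂ ⧸ 𝔪, inferInstance, inferInstance,
    (FAG.residualOfMatrix R hR1).V, inferInstance, inferInstance, (FAG.residualOfMatrix R hR1).ρ,
    Ideal.Quotient.mk 𝔪, L0, inferInstance, hnf, hL0g, inferInstance, inferInstance,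
    ?_, (FAG.residualOfMatrix R hR1).finrank_eq, ?_, ?_, ?_⟩
  · rw [Ideal.mk_ker]
  · intro σ hσ
    have h1 : ∀ x ∈ L0, σ x = x := by
      have h2 : AlgEquiv.restrictNormalHom (F := ℚ) (K₁ := AlgebraicClosure ℚ) L0 σ =
          AlgEquiv.restrictNormalHom (F := ℚ) (K₁ := AlgebraicClosure ℚ) L0 1 := by
        rw [map_one]
        exact hσ
      exact (FAG.restrictNormalHom_eq_iff L0 σ 1).1 h2
    refine ⟨?_, ?_⟩
    · exact hL2' σ fun x hx => h1 x (hle ((le_sup_right : L2 ≤ L1 ⊔ L2) hx))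
    · exact FAG.residualOfMatrix_eq_one R hR1
        (hL1' σ fun x hx => h1 x (hle ((le_sup_left : L1 ≤ L1 ⊔ L2) hx)))
  · intro ℓ hℓ h1 h2 A hA τ hτ
    obtain ⟨a, ha, hc⟩ := hR3 ℓ hℓ (hNp ℓ hℓ h1 h2) A hA τ hτ
    exact ⟨a, ha, (FAG.residualOfMatrix_trace R hR1 τ).trans (FAG.trace_of_charpoly _ hc)⟩
  · intro ℓ hℓ h1 h2 A hA τ hτ
    obtain ⟨a, ha, hc⟩ := hR3 ℓ hℓ (hNp ℓ hℓ h1 h2) A hA τ hτ
    exact (FAG.residualOfMatrix_det R hR1 τ).trans (FAG.det_of_charpoly _ hc)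

end Fermat.Agent.S42
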