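import Fermat.Statements.S49
import Fermat.Prelude.Thm_CuspForm_intLattice_fg
import Fermat.Prelude.Thm_CuspForm_mem_intLattice_of_mem_heckeAlgebra
import Fermat.Agent.H7.FormalHecke
import Fermat.Agent.H7.QCoeff
import Fermat.Agent.H7.AbstractLifting

set_option autoImplicit false
open CuspForm EisensteinWeightOne CongruenceSubgroup ModularFormClass
open FLT FLT.AbstractIntegralStructure

namespace Fermat.Agent.S49

open Fermat.Agent.H7

/-- `E₁^{χ₋₃} ≡ 1 (mod 3)`, so the bridge product is congruent to `a`. -/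
theorem three_dvd_bridgeProduct_sub (a : ℕ → ℤ) (n : ℕ) :
    (3 : ℤ) ∣ (bridgeProduct a).coeff n - a n := by
  set G : PowerSeries ℤ := PowerSeries.mk fun n => if n = 0 then 0 else 2 * sigmaChi n with hG
  have hE : e1Chi3In ℤ = 1 + PowerSeries.C (3 : ℤ) * G := by
    ext m
    simp only [e1Chi3In, e1Chi3, PowerSeries.coeff_map, PowerSeries.coeff_mk, map_add,
      PowerSeries.coeff_C_mul, hG, PowerSeries.coeff_one]
    by_cases hm : m = 0
    · simp [hm]
    · simp [hm]; ring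
  refine ⟨(PowerSeries.mk a * G).coeff n, ?_⟩
  unfold bridgeProduct
  rw [hE, mul_add, mul_one, map_add, PowerSeries.coeff_mk, mul_left_comm,
    PowerSeries.coeff_C_mul]
  ring

theorem three_dvd_sub_chiNegThree (ℓ : ℕ) : (3 : ℤ) ∣ (ℓ : ℤ) - chiNegThree ℓ := by
  unfold chiNegThree
  have h3 : ℓ % 3 < 3 := Nat.mod_lt _ (by norm_num)
  split_ifs with h1 h2 <;> omega

theorem qIntegralSet_subset_intLattice (N : ℕ) {f : CuspForm (Gamma0 N) 2}
    (hf : f ∈ qIntegralSet N) : f ∈ CuspForm.intLattice N 2 := by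
  rw [mem_intLattice_iff]
  intro n
  obtain ⟨m, hm⟩ := Subring.mem_bot.mp (hf n)
  exact ⟨m, hm.symm⟩

theorem heckeAlgebra_finite {N : ℕ} [NeZero N] (h : CuspForm.HasIntegralBasis N) :
    Module.Finite ℤ (CuspForm.heckeAlgebra N 2 ∅) := by
  classical
  obtain ⟨s, hs⟩ := CuspForm.intLattice_fg N 2
  have hsL : ∀ g ∈ s, g ∈ CuspForm.intLattice N 2 := fun g hg => by
    rw [← hs]; exact Submodule.subset_span hg
  have : Module.Finite ℤ (CuspForm.intLattice N 2) :=
    Module.Finite.iff_fg.mpr (CuspForm.intLattice_fg N 2)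
  let Φ : CuspForm.heckeAlgebra N 2 ∅ →ₗ[ℤ] (s → CuspForm.intLattice N 2) :=
    { toFun := fun t g => ⟨(t : Module.End ℂ (CuspForm (Gamma0 N) 2)) g.1,
        CuspForm.mem_intLattice_of_mem_heckeAlgebra (by norm_num) t.2 (hsL g.1 g.2)⟩
      map_add' := fun t t' => by
        funext g
        apply Subtype.ext
        simp
      map_smul' := fun c t => by
        funext g
        apply Subtype.ext
        simp }
  have hinj : Function.Injective Φ := by
    refine (injective_iff_map_eq_zero _).mpr fun t ht ↦ ?_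
    apply Subtype.ext
    have h0 : ∀ g ∈ s, (t : Module.End ℂ (CuspForm (Gamma0 N) 2)) g = 0 := by
      intro g hg
      have := congrFun ht ⟨g, hg⟩
      exact congrArg Subtype.val this
    have h1 : ∀ g ∈ CuspForm.intLattice N 2,
        (t : Module.End ℂ (CuspForm (Gamma0 N) 2)) g = 0 := by
      intro g hg
      rw [← hs] at hg
      induction hg using Submodule.span_induction with
      | mem x hx => exact h0 x hx
      | zero => simp
      | add x y _ _ hx hy => rw [map_add, hx, hy, add_zero]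
      | smul c x _ hx => rw [map_zsmul, hx, smul_zero]
    refine LinearMap.ext_on h ?_
    intro g hg
    simpa using h1 g (qIntegralSet_subset_intLattice N hg)
  exact Module.Finite.of_injective Φ hinj

theorem result
    {N : ℕ} [NeZero N] (h : CuspForm.HasIntegralBasis N) {a : ℕ → ℤ}
    (heig : FormalHecke.IsEigensystem
      (fun ℓ => if ℓ ∣ N then 0 else ((chiNegThree ℓ : ℤ) : ℤ)) a)
    (hreal : CuspForm.IsLatticeRealized N a) :
    ∃ (f : CuspForm (Gamma0 N) 2) (_ : f.IsNormalizedEigenform)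
      (𝔪' : Ideal (integralClosure ℤ ℂ)), 𝔪'.IsMaximal ∧
      ((3 : ℕ) : integralClosure ℤ ℂ) ∈ 𝔪' ∧
      ∀ (ℓ : ℕ) (_ : ℓ.Prime) (_ : ¬ ℓ ∣ N),
        ∃ c : integralClosure ℤ ℂ, (c : ℂ) = ModularFormClass.qCoeff f ℓ ∧
          c - (a ℓ : integralClosure ℤ ℂ) ∈ 𝔪' := by
  classical
  obtain ⟨f₀, hf₀mem, af, haf, hcong⟩ := hreal
  obtain ⟨ha1, harel⟩ := heig
  have hf₀L : f₀ ∈ CuspForm.intLattice N 2 := qIntegralSet_subset_intLattice N hf₀mem
  have hafa : ∀ n, (3 : ℤ) ∣ af n - a n := fun n => by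
    have := dvd_add (hcong n) (three_dvd_bridgeProduct_sub a n)
    simpa using this
  have : FiniteDimensional ℂ (CuspForm (Gamma0 N) 2) := finiteDimensional_cuspForm N 2
  have : Module.Finite ℤ (CuspForm.heckeAlgebra N 2 ∅) := heckeAlgebra_finite h
  let ρ : CuspForm.heckeAlgebra N 2 ∅ →+* Module.End ℂ (CuspForm (Gamma0 N) 2) :=
    (CuspForm.heckeAlgebra N 2 ∅).val.toRingHom
  have hρ : Function.Injective ρ := Subtype.val_injective
  have hρL : ∀ (t : CuspForm.heckeAlgebra N 2 ∅) (g : CuspForm (Gamma0 N) 2),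
      g ∈ CuspForm.intLattice N 2 → ρ t g ∈ CuspForm.intLattice N 2 := fun t g hg =>
    CuspForm.mem_intLattice_of_mem_heckeAlgebra (by norm_num) t.2 hg
  let I0 : Ideal (CuspForm.heckeAlgebra N 2 ∅) :=
    { carrier := {t | ∃ g ∈ CuspForm.intLattice N 2, ρ t f₀ = (3 : ℂ) • g}
      add_mem' := by
        rintro t t' ⟨g, hg, hgt⟩ ⟨g', hg', hgt'⟩
        exact ⟨g + g', add_mem hg hg', by rw [map_add, LinearMap.add_apply, hgt, hgt', smul_add]⟩
      zero_mem' := ⟨0, zero_mem _, by simp⟩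
      smul_mem' := by
        rintro s t ⟨g, hg, hgt⟩
        exact ⟨ρ s g, hρL s g hg, by
          rw [smul_eq_mul, map_mul, Module.End.mul_apply, hgt, map_smul]⟩ }
  have hI0mem : ∀ t, t ∈ I0 ↔ ∃ g ∈ CuspForm.intLattice N 2, ρ t f₀ = (3 : ℂ) • g :=
    fun t => Iff.rfl
  have hI0 : I0 ≠ ⊤ := by
    intro htop
    have h1 : (1 : CuspForm.heckeAlgebra N 2 ∅) ∈ I0 := by rw [htop]; trivial
    obtain ⟨g, hg, hgt⟩ := (hI0mem _).1 h1
    rw [map_one, Module.End.one_apply] at hgt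
    obtain ⟨m, hm⟩ := (mem_intLattice_iff g).1 hg 1
    have h2 : qCoeff ⇑f₀ 1 = 3 * qCoeff ⇑g 1 := by rw [hgt, qCoeff_smul]
    rw [← haf 1, hm] at h2
    have h3 : af 1 = 3 * m := by exact_mod_cast h2
    have h4 := hafa 1
    rw [ha1, h3] at h4
    omega
  obtain ⟨w, μ, 𝔪', hw0, hμ, h𝔪'max, hI0le⟩ := abstract_lifting ρ hρ I0 hI0
  -- the Hecke generators
  let gen : ∀ ℓ : ℕ, ℓ.Prime → CuspForm.heckeAlgebra N 2 ∅ := fun ℓ hℓ =>
    if hN : ℓ ∣ N then heckeAlgebra.U hℓ hN (Set.notMem_empty _)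
    else heckeAlgebra.T hℓ hN (Set.notMem_empty _)
  let lam : ℕ → ℂ := fun ℓ => if hℓ : ℓ.Prime then ((μ (gen ℓ hℓ) : integralClosure ℤ ℂ) : ℂ) else 0
  let e : ℕ → ℂ := fun ℓ => if ℓ ∣ N then 0 else (ℓ : ℂ)
  have hrelw : ∀ ℓ : ℕ, ℓ.Prime → ∀ n : ℕ,
      qCoeff ⇑w (ℓ * n) + e ℓ * (if ℓ ∣ n then qCoeff ⇑w (n / ℓ) else 0) =
        lam ℓ * qCoeff ⇑w n := by
    intro ℓ hℓ n
    have h1 := hμ (gen ℓ hℓ)
    have h2 := congrArg (fun g : CuspForm (Gamma0 N) 2 => qCoeff ⇑g n) h1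
    simp only [qCoeff_smul] at h2
    have hlam : lam ℓ = ((μ (gen ℓ hℓ) : integralClosure ℤ ℂ) : ℂ) := by
      simp only [lam, dif_pos hℓ]
    rw [hlam, ← h2]
    by_cases hN : ℓ ∣ N
    · have hg : ρ (gen ℓ hℓ) = heckeULin 2 hN := by
        simp only [gen, dif_pos hN]; rfl
      rw [hg, qCoeff_heckeULin hℓ hN]
      simp [e, hN]
    · have hg : ρ (gen ℓ hℓ) = heckeTLin 2 hℓ hN := by
        simp only [gen, dif_neg hN]; rfl
      rw [hg, qCoeff_heckeTLin hℓ hN]
      simp only [e, if_neg hN]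
      split_ifs <;> norm_num
  have hc1 : qCoeff ⇑w 1 ≠ 0 := by
    intro h0
    apply hw0
    apply eq_zero_of_qCoeff_eq_zero
    intro n
    rcases Nat.eq_zero_or_pos n with rfl | hn
    · exact qCoeff_at_zero w
    · exact formal_eq_zero_of_one_eq_zero e lam (fun n => qCoeff ⇑w n) h0 hrelw n hn
  set f : CuspForm (Gamma0 N) 2 := (qCoeff ⇑w 1)⁻¹ • w with hf
  have hfc : ∀ n, qCoeff ⇑f n = (qCoeff ⇑w 1)⁻¹ * qCoeff ⇑w n := fun n => by
    rw [hf, qCoeff_smul]
  have hf1 : qCoeff ⇑f 1 = 1 := by rw [hfc, inv_mul_cancel₀ hc1]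
  have hrelf0 : ∀ ℓ : ℕ, ℓ.Prime → ∀ n : ℕ,
      qCoeff ⇑f (ℓ * n) + e ℓ * (if ℓ ∣ n then qCoeff ⇑f (n / ℓ) else 0) =
        lam ℓ * qCoeff ⇑f n := by
    intro ℓ hℓ n
    have := hrelw ℓ hℓ n
    simp only [hfc]
    split_ifs at this ⊢ with hd
    · linear_combination (qCoeff ⇑w 1)⁻¹ * this
    · linear_combination (qCoeff ⇑w 1)⁻¹ * this
  have hlamf : ∀ ℓ : ℕ, ℓ.Prime → lam ℓ = qCoeff ⇑f ℓ := by
    intro ℓ hℓ
    have := hrelf0 ℓ hℓ 1
    have hd : ¬ ℓ ∣ 1 := fun hd => hℓ.one_lt.ne' (Nat.dvd_one.mp hd)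
    rw [if_neg hd, hf1, mul_one, mul_zero, add_zero, mul_one] at this
    exact this.symm
  have hrelf : ∀ ℓ : ℕ, ℓ.Prime → ∀ n : ℕ,
      qCoeff ⇑f (ℓ * n) + e ℓ * (if ℓ ∣ n then qCoeff ⇑f (n / ℓ) else 0) =
        qCoeff ⇑f ℓ * qCoeff ⇑f n := by
    intro ℓ hℓ n
    rw [← hlamf ℓ hℓ]; exact hrelf0 ℓ hℓ n
  have hnorm : f.IsNormalizedEigenform :=
    { qCoeff_one := hf1
      qCoeff_mul_of_coprime := formal_mul_of_coprime e (fun n => qCoeff ⇑f n) hf1 hrelf
      qCoeff_prime_pow_of_not_dvd := by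
        intro p r hp hpN
        have := hrelf p hp (p ^ (r + 1))
        have hd : p ∣ p ^ (r + 1) := dvd_pow_self p (Nat.succ_ne_zero r)
        have hq : p ^ (r + 1) / p = p ^ r := by
          rw [pow_succ]; exact Nat.mul_div_cancel _ hp.pos
        have hpp : p * p ^ (r + 1) = p ^ (r + 2) := by ring
        rw [if_pos hd, hq, hpp] at this
        simp only [e, if_neg hpN] at this
        linear_combination this
      qCoeff_prime_pow_of_dvd := by
        intro p r hp hpN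
        have := hrelf p hp (p ^ (r + 1))
        have hpp : p * p ^ (r + 1) = p ^ (r + 2) := by ring
        rw [hpp] at this
        simp only [e, if_pos hpN, zero_mul, add_zero] at this
        exact this }
  refine ⟨f, hnorm, 𝔪', h𝔪'max, ?_, ?_⟩
  · have h3 : (3 : CuspForm.heckeAlgebra N 2 ∅) ∈ I0 := by
      refine (hI0mem _).2 ⟨f₀, hf₀L, ?_⟩
      have : ρ (3 : CuspForm.heckeAlgebra N 2 ∅) = (3 : Module.End ℂ (CuspForm (Gamma0 N) 2)) :=
        map_ofNat ρ 3
      rw [this]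
      have h3' : (3 : Module.End ℂ (CuspForm (Gamma0 N) 2)) = (3 : ℂ) • 1 := by
        rw [Algebra.smul_def, mul_one, map_ofNat]
      rw [h3', LinearMap.smul_apply, Module.End.one_apply]
    have := hI0le h3
    rw [Ideal.mem_comap, map_ofNat] at this
    exact_mod_cast this
  · intro ℓ hℓ hℓN
    refine ⟨μ (gen ℓ hℓ), ?_, ?_⟩
    · rw [← hlamf ℓ hℓ]
      simp only [lam, dif_pos hℓ]
    · have hmem : gen ℓ hℓ - (a ℓ : CuspForm.heckeAlgebra N 2 ∅) ∈ I0 := by
        have hg : ρ (gen ℓ hℓ) = heckeTLin 2 hℓ hℓN := by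
          simp only [gen, dif_neg hℓN]; rfl
        set g : CuspForm (Gamma0 N) 2 :=
          (3 : ℂ)⁻¹ • (heckeTLin 2 hℓ hℓN f₀ - (a ℓ : ℂ) • f₀) with hgdef
        refine (hI0mem _).2 ⟨g, ?_, ?_⟩
        · rw [mem_intLattice_iff]
          intro n
          have key : (3 : ℤ) ∣ af (ℓ * n) + (if ℓ ∣ n then (ℓ : ℤ) * af (n / ℓ) else 0)
              - a ℓ * af n := by
            have r1 := harel ℓ hℓ n
            simp only [if_neg hℓN] at r1
            have d1 := hafa (ℓ * n)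
            have d2 := hafa n
            have d3 := hafa (n / ℓ)
            have d4 := three_dvd_sub_chiNegThree ℓ
            obtain ⟨x1, hx1⟩ := d1
            obtain ⟨x2, hx2⟩ := d2
            obtain ⟨x3, hx3⟩ := d3
            obtain ⟨x4, hx4⟩ := d4
            split_ifs at r1 ⊢ with hd
            · refine ⟨x1 + x4 * af (n / ℓ) + chiNegThree ℓ * x3 - a ℓ * x2, ?_⟩
              linear_combination hx1 + af (n / ℓ) * hx4 + chiNegThree ℓ * hx3 - a ℓ * hx2 + r1
            · refine ⟨x1 - a ℓ * x2, ?_⟩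
              linear_combination hx1 - a ℓ * hx2 + r1
          obtain ⟨m, hm⟩ := key
          refine ⟨m, ?_⟩
          rw [hgdef, qCoeff_smul, qCoeff_sub, qCoeff_smul, qCoeff_heckeTLin hℓ hℓN,
            ← haf, ← haf, ← haf]
          have hm' : ((af (ℓ * n) + (if ℓ ∣ n then (ℓ : ℤ) * af (n / ℓ) else 0)
              - a ℓ * af n : ℤ) : ℂ) = ((3 * m : ℤ) : ℂ) := by rw [hm]
          push_cast at hm'
          have h21 : ((ℓ : ℂ) ^ ((2 : ℤ) - 1)) = (ℓ : ℂ) := by norm_num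
          rw [h21]
          have h3ne : (3 : ℂ) ≠ 0 := by norm_num
          field_simp
          linear_combination hm'
        · rw [map_sub, map_intCast, hg, LinearMap.sub_apply, hgdef, smul_smul,
            mul_inv_cancel₀ (by norm_num : (3 : ℂ) ≠ 0), one_smul]
          congr 1
          rw [Module.End.intCast_apply, Int.cast_smul_eq_zsmul]
      have := hI0le hmem
      rw [Ideal.mem_comap, map_sub, map_intCast] at this
      exact this

end Fermat.Agent.S49
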