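import Fermat.Statements.S53
import Fermat.Agent.Deform.Abstract
import Fermat.Agent.Deform.GalFunctor
import Fermat.Agent.Deform.FrameExists
import Fermat.Agent.Deform.Normalize
import Fermat.Agent.Deform.Residual
import Fermat.Agent.Deform.DictBasic

set_option autoImplicit false
set_option autoImplicit false
open GaloisRep FADeform

namespace Fermat.Agent.S53

theorem result
    (𝒪 : Type) [CommRing 𝒪] [IsDomain 𝒪] [IsDiscreteValuationRing 𝒪]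
    [IsAdicComplete (IsLocalRing.maximalIdeal 𝒪) 𝒪] [Finite (IsLocalRing.ResidueField 𝒪)]
    (ρbar : ResidualGaloisRep (IsLocalRing.ResidueField 𝒪))
    (𝒟 : ∀ ⦃A : Type⦄ [CommRing A] [IsLocalRing A] [Algebra 𝒪 A], GaloisRepAdic A → Prop)
    (habs : ρbar.IsAbsolutelyIrreducible)
    (h𝒟 : GaloisRep.IsDeformationCondition 𝒪 𝒟)
    (hbar : 𝒟 (GaloisRepAdic.ofResidualGaloisRep ρbar))
    (hfin : GaloisRep.TangentFinite 𝒪 ρbar 𝒟) :
    Nonempty (GaloisRep.DeformationRingData 𝒪 ρbar 𝒟) := by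
  obtain ⟨Fr⟩ := exists_frame 𝒪 ρbar habs
  obtain ⟨R, i1, i2, i3, i4, i5, i6, hsurj, u, ⟨rR, hu, hlR, hnR, hDR⟩, huniv⟩ :=
    hasUniversal_of_isProRepData 𝒪 _ _ _ (isProRepData_galF 𝒪 ρbar 𝒟 h𝒟 hbar hfin Fr)
  refine ⟨{ R := R, residue_surjective := hsurj, absIrr := habs, ρ := rR.toAdic, isOfType := hDR,
            residual_isEquiv := residual_of_isLift Fr hlR, universal := ?_ }⟩
  intro A _ _ _ _ _ _ hA ρA hDA hresA
  obtain ⟨rA, hlA, hnA, heA⟩ := exists_normalized Fr A ρA hresA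
  have hDrA : 𝒟 rA.toAdic := by
    obtain ⟨e⟩ := heA
    exact cond_congr_complete h𝒟 inferInstance hA ⟨e.symm⟩ hDA
  obtain ⟨φ, hφ, hφuniq⟩ := huniv A hA (fun x => rA.r x.1 x.2.1 x.2.2)
    ⟨rA, fun _ _ _ => rfl, hlA, hnA, hDrA⟩
  have key : ∀ (ψ : R →ₐ[𝒪] A) (hψ : IsLocalHom (ψ : R →+* A)),
      (∀ x, ψ (u x) = rA.r x.1 x.2.1 x.2.2) ↔ rR.map (ψ : R →+* A) hψ = rA := by
    intro ψ hψ
    constructor
    · intro h
      ext g i j
      rw [MatRep.map_r_apply, ← hu]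
      exact h (g, i, j)
    · rintro h ⟨g, i, j⟩
      rw [hu, ← h]
      rfl
  refine ⟨φ, ⟨isLocalHom_of_algHom hA φ, ?_⟩, ?_⟩
  · obtain ⟨e1⟩ := toAdic_baseChangeAlong (φ : R →+* A) (isLocalHom_of_algHom hA φ) rR
    obtain ⟨e2⟩ := heA
    rw [(key φ (isLocalHom_of_algHom hA φ)).mp hφ] at e1
    exact ⟨e1.trans e2⟩
  · rintro ψ ⟨hψ, ⟨e⟩⟩
    apply hφuniq
    rw [key ψ hψ]
    obtain ⟨e1⟩ := toAdic_baseChangeAlong (ψ : R →+* A) hψ rR
    obtain ⟨e2⟩ := heA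
    exact normalized_unique Fr (isLift_map Fr ψ hψ hlR) (isNormalized_map Fr ψ hψ hnR) hlA hnA
      ⟨(e1.symm.trans e).trans e2.symm⟩

end Fermat.Agent.S53
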