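import Fermat.Statements.S57
import Fermat.Agent.H8.PatchingCore
import Fermat.Agent.S57.RegPar

set_option autoImplicit false
open Algebra Algebra.PatchingLevel

namespace Fermat.Agent.S57

theorem result
    {𝒪 : Type} [CommRing 𝒪] [IsDomain 𝒪] [IsDiscreteValuationRing 𝒪]
    {r : ℕ} {R : Type} [CommRing R] [Algebra 𝒪 R]
    {M : Type} [AddCommGroup M] [Module R M] [Nontrivial M]
    (L : Algebra.PatchingLevel 𝒪 r R M ⊥) :
    Module.Free R M ∧ Module.annihilator R M = ⊥ ∧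
      RingHom.ker L.ψ = Ideal.span (Set.range fun i : Fin r => L.φ (MvPowerSeries.X i)) := by
  obtain ⟨ϖ, hϖ⟩ := IsDiscreteValuationRing.exists_irreducible 𝒪
  obtain ⟨xs, hlen, hreg, hmax, hxs⟩ := FA_S57_exists_regPar ϖ hϖ r
  exact FAh8.patching_core L ϖ hϖ.not_isUnit xs hreg hlen hmax.ge hxs
    (fun N _ _ _ rs h1 h2 h3 h4 => FA_S57_free_of_regular N rs h1 h2 h3 h4)

end Fermat.Agent.S57
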